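import Mathlib
import Fermat.Prelude.Def_EllipticCurve_FrobeniusTrace
import Fermat.Prelude.Def_FLTPrelim_Ramification

/-!
# Row LT, tower A2, leaf `FrobLC` (registry 817) -- abstract part (helper138, OFF-MAIN)

Mathlib + Prelude only.  Valuation subrings `A` of `ℚ̄`, Prelude Frobenius elements.

* `mem_of_isIntegral138` : algebraic integers lie in every valuation subring of `ℚ̄`.
* `int_dvd_of_mem_nonunits138` : `c ∈ ℤ ∩ 𝔪_A`, `A | p` ⟹ `p ∣ c`.
* `residue_smul138` : the action of the decomposition group on the residue field.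
* `isFrobeniusAt_pow138` : `σ` Frobenius at `A` for `q` ⟹ `σ ^ f` Frobenius at `A` for `q ^ f`.
* `exists_sep_primes138` : for an algebraic integer `α` there is a finite set `S` of primes such
  that for `p ∉ S`, `A | p`, every `τ ∈ G_ℚ` with `τ α ≡ α mod 𝔪_A` fixes `α`
  (the differences of the conjugates of `α` are units outside `S`).
-/

set_option autoImplicit false

noncomputable section

namespace Fermat.Agent.LT.A2.H138

local notation "Qb" => AlgebraicClosure ℚ
local notation "Γℚ" => (AlgebraicClosure ℚ ≃ₐ[ℚ] AlgebraicClosure ℚ)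

/-- `ℚ̄ / ℚ` is Galois. -/
theorem isGalois_Qb138 : IsGalois ℚ Qb := by
  have : Algebra.IsAlgebraic ℚ Qb := AlgebraicClosure.isAlgebraic ℚ
  have : IsAlgClosure ℚ Qb := ⟨inferInstance, inferInstance⟩
  have : Normal ℚ Qb := IsAlgClosure.normal ℚ Qb
  exact isGalois_iff.mpr ⟨inferInstance, inferInstance⟩

/-- Integers lie in every valuation subring. -/
theorem intCast_mem138 (A : ValuationSubring Qb) (c : ℤ) : (c : Qb) ∈ A :=
  intCast_mem A c

/-- Algebraic integers lie in every valuation subring of `ℚ̄`. -/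
theorem mem_of_isIntegral138 (A : ValuationSubring Qb) {x : Qb} (hx : IsIntegral ℤ x) :
    x ∈ A := by
  have h1 : IsIntegral A x := hx.tower_top
  obtain ⟨y, hy⟩ := IsIntegrallyClosed.isIntegral_iff.mp h1
  rw [← hy]
  exact y.2

/-- `𝔪_A` is closed under addition. -/
theorem add_mem_nonunits138 (A : ValuationSubring Qb) {x y : Qb} (hx : x ∈ A.nonunits)
    (hy : y ∈ A.nonunits) : x + y ∈ A.nonunits := by
  rw [ValuationSubring.mem_nonunits_iff_exists_mem_maximalIdeal] at hx hy ⊢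
  obtain ⟨hxA, hxm⟩ := hx
  obtain ⟨hyA, hym⟩ := hy
  exact ⟨A.add_mem _ _ hxA hyA, (IsLocalRing.maximalIdeal A).add_mem hxm hym⟩

/-- `𝔪_A` is an ideal of `A`. -/
theorem mul_mem_nonunits138 (A : ValuationSubring Qb) {x y : Qb} (hx : x ∈ A)
    (hy : y ∈ A.nonunits) : x * y ∈ A.nonunits := by
  rw [ValuationSubring.mem_nonunits_iff_exists_mem_maximalIdeal] at hy ⊢
  obtain ⟨hyA, hym⟩ := hy
  exact ⟨A.mul_mem _ _ hx hyA, (IsLocalRing.maximalIdeal A).mul_mem_left ⟨x, hx⟩ hym⟩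

theorem one_not_mem_nonunits138 (A : ValuationSubring Qb) : (1 : Qb) ∉ A.nonunits := by
  intro h
  rw [ValuationSubring.mem_nonunits_iff_exists_mem_maximalIdeal] at h
  obtain ⟨h1, hm⟩ := h
  have : (⟨1, h1⟩ : A) = 1 := rfl
  rw [this] at hm
  exact (Ideal.ne_top_iff_one _).mp (IsLocalRing.maximalIdeal.isMaximal A).ne_top hm

/-- An integer of `𝔪_A` is divisible by the residue characteristic. -/
theorem int_dvd_of_mem_nonunits138 (A : ValuationSubring Qb) {p : ℕ} (hp : p.Prime)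
    (hA : A.LiesOverPrime p) {c : ℤ} (hc : (c : Qb) ∈ A.nonunits) : (p : ℤ) ∣ c := by
  by_contra hnd
  have hcop : IsCoprime (p : ℤ) c :=
    ((Nat.prime_iff_prime_int.mp hp).coprime_iff_not_dvd).mpr hnd
  obtain ⟨u, v, huv⟩ := hcop
  have h1 : ((u : Qb) * (p : Qb)) + (v : Qb) * (c : Qb) = 1 := by
    have := congrArg (fun z : ℤ => (z : Qb)) huv
    push_cast at this
    exact this
  have h2 : ((u : Qb) * (p : Qb)) + (v : Qb) * (c : Qb) ∈ A.nonunits :=
    add_mem_nonunits138 A (mul_mem_nonunits138 A (intCast_mem138 A u) hA)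
      (mul_mem_nonunits138 A (intCast_mem138 A v) hc)
  rw [h1] at h2
  exact one_not_mem_nonunits138 A h2

/-- A natural number of `𝔪_A` is divisible by the residue characteristic. -/
theorem nat_dvd_of_mem_nonunits138 (A : ValuationSubring Qb) {p : ℕ} (hp : p.Prime)
    (hA : A.LiesOverPrime p) {c : ℕ} (hc : (c : Qb) ∈ A.nonunits) : p ∣ c := by
  have h : (((c : ℤ) : ℤ) : Qb) ∈ A.nonunits := by
    have : (((c : ℤ) : ℤ) : Qb) = (c : Qb) := by push_cast; rfl
    rw [this]; exact hc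
  exact Int.natCast_dvd_natCast.mp (int_dvd_of_mem_nonunits138 A hp hA h)

/-! ## The action on the residue field -/

/-- The decomposition group preserves `A`. -/
theorem apply_mem_of_mem_decomp138 (A : ValuationSubring Qb) {σ : Γℚ}
    (hσ : σ ∈ A.decompositionSubgroup ℚ) {x : Qb} (hx : x ∈ A) : σ x ∈ A := by
  have h := ((⟨σ, hσ⟩ : A.decompositionSubgroup ℚ) • (⟨x, hx⟩ : A)).2
  exact h

/-- `σ • (x mod 𝔪_A) = (σ x mod 𝔪_A)`. -/
theorem residue_smul138 (A : ValuationSubring Qb) {σ : Γℚ}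
    (hσ : σ ∈ A.decompositionSubgroup ℚ) {x : Qb} (hx : x ∈ A) :
    (⟨σ, hσ⟩ : A.decompositionSubgroup ℚ) • (IsLocalRing.residue A ⟨x, hx⟩)
      = IsLocalRing.residue A ⟨σ x, apply_mem_of_mem_decomp138 A hσ hx⟩ := by
  rw [← IsLocalRing.ResidueField.residue_smul]
  rfl

/-- Powers of a Frobenius element. -/
theorem isFrobeniusAt_pow138 (A : ValuationSubring Qb) {σ : Γℚ} {q : ℕ}
    (h : A.IsFrobeniusAt σ q) (f : ℕ) : A.IsFrobeniusAt (σ ^ f) (q ^ f) := by
  obtain ⟨hσ, hx⟩ := h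
  refine ⟨pow_mem hσ f, fun x => ?_⟩
  have hpow : (⟨σ ^ f, pow_mem hσ f⟩ : A.decompositionSubgroup ℚ)
      = (⟨σ, hσ⟩ : A.decompositionSubgroup ℚ) ^ f := rfl
  rw [hpow]
  clear hpow
  induction f generalizing x with
  | zero => simp
  | succ n ih =>
    rw [pow_succ, mul_smul, hx x, ih (x ^ q), ← pow_mul, pow_succ, mul_comm]

/-- The residue class of `x ∈ A` is fixed by `σ` iff `σ x - x ∈ 𝔪_A`. -/
theorem sub_mem_nonunits_of_smul_residue138 (A : ValuationSubring Qb) {σ : Γℚ}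
    (hσ : σ ∈ A.decompositionSubgroup ℚ) {x : Qb} (hx : x ∈ A)
    (h : (⟨σ, hσ⟩ : A.decompositionSubgroup ℚ) • (IsLocalRing.residue A ⟨x, hx⟩)
      = IsLocalRing.residue A ⟨x, hx⟩) : σ x - x ∈ A.nonunits := by
  rw [residue_smul138 A hσ hx] at h
  rw [ValuationSubring.mem_nonunits_iff_exists_mem_maximalIdeal]
  refine ⟨A.sub_mem (apply_mem_of_mem_decomp138 A hσ hx) hx, ?_⟩
  rw [← IsLocalRing.residue_eq_zero_iff]
  have : (⟨σ x - x, A.sub_mem (apply_mem_of_mem_decomp138 A hσ hx) hx⟩ : A)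
      = ⟨σ x, apply_mem_of_mem_decomp138 A hσ hx⟩ - ⟨x, hx⟩ := rfl
  rw [this, map_sub, h, sub_self]

/-! ## Separation of the conjugates -/

/-- A nonzero algebraic integer divides a nonzero rational integer: if it lies in `𝔪_A`, `A | p`,
then `p` divides the constant coefficient of its minimal polynomial. -/
theorem exists_int_of_isIntegral138 {d : Qb} (hd : IsIntegral ℤ d) (hd0 : d ≠ 0) :
    ∃ c : ℤ, c ≠ 0 ∧ ∀ A : ValuationSubring Qb, d ∈ A.nonunits → (c : Qb) ∈ A.nonunits := by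
  refine ⟨(minpoly ℤ d).coeff 0, ?_, fun A hdA => ?_⟩
  · intro h0
    have h1 : minpoly ℚ d = (minpoly ℤ d).map (algebraMap ℤ ℚ) :=
      minpoly.isIntegrallyClosed_eq_field_fractions' ℚ hd
    have h2 : (minpoly ℚ d).coeff 0 = 0 := by
      rw [h1, Polynomial.coeff_map, h0, map_zero]
    have hdQ : IsIntegral ℚ d := hd.tower_top
    exact minpoly.coeff_zero_ne_zero hdQ hd0 h2
  · have h1 : Polynomial.aeval d (minpoly ℤ d) = 0 := minpoly.aeval ℤ d
    have h2 := Polynomial.divX_mul_X_add (minpoly ℤ d)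
    rw [← h2] at h1
    simp only [map_add, map_mul, Polynomial.aeval_X, Polynomial.aeval_C] at h1
    have h3 : ((algebraMap ℤ Qb) ((minpoly ℤ d).coeff 0))
        = -(Polynomial.aeval d (minpoly ℤ d).divX) * d := by
      linear_combination h1
    have h4 : ((((minpoly ℤ d).coeff 0 : ℤ)) : Qb)
        = -(Polynomial.aeval d (minpoly ℤ d).divX) * d := by
      rw [← h3]; rfl
    rw [h4]
    apply mul_mem_nonunits138 A _ hdA
    apply mem_of_isIntegral138 A
    apply IsIntegral.neg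
    have hsub : Polynomial.aeval d (minpoly ℤ d).divX ∈ Algebra.adjoin ℤ {d} := by
      rw [Algebra.adjoin_singleton_eq_range_aeval]
      exact ⟨_, rfl⟩
    exact IsIntegral.of_mem_of_fg (Algebra.adjoin ℤ {d}) (hd.fg_adjoin_singleton) _ hsub

/-- For an algebraic integer `α` there is a finite set `S` of primes such that for `p ∉ S` and
`A | p`: every `τ` with `τ α ≡ α mod 𝔪_A` fixes `α`. -/
theorem exists_sep_primes138 {α : Qb} (hα : IsIntegral ℤ α) :
    ∃ S : Finset ℕ, ∀ p : ℕ, p.Prime → p ∉ S →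
      ∀ A : ValuationSubring Qb, A.LiesOverPrime p →
        ∀ τ : Γℚ, τ α - α ∈ A.nonunits → τ α = α := by
  classical
  have hfin : ((minpoly ℚ α).rootSet Qb).Finite := Polynomial.rootSet_finite _ _
  have hex : ∀ β : Qb, ∃ c : ℤ, (β ∈ (minpoly ℚ α).rootSet Qb → β ≠ α →
      c ≠ 0 ∧ ∀ A : ValuationSubring Qb, β - α ∈ A.nonunits → (c : Qb) ∈ A.nonunits) := by
    intro β
    by_cases hβ : β ∈ (minpoly ℚ α).rootSet Qb ∧ β ≠ α
    · have hβint : IsIntegral ℤ β := by
        have hroot : Polynomial.aeval β (minpoly ℚ α) = 0 :=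
          (Polynomial.mem_rootSet.mp hβ.1).2
        have h1 : minpoly ℚ α = (minpoly ℤ α).map (algebraMap ℤ ℚ) :=
          minpoly.isIntegrallyClosed_eq_field_fractions' ℚ hα
        rw [h1, Polynomial.aeval_map_algebraMap] at hroot
        exact ⟨minpoly ℤ α, minpoly.monic hα, by
          rw [← Polynomial.aeval_def]; exact hroot⟩
      obtain ⟨c, hc0, hc⟩ := exists_int_of_isIntegral138 (hβint.sub hα)
        (sub_ne_zero.mpr hβ.2)
      exact ⟨c, fun _ _ => ⟨hc0, hc⟩⟩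
    · exact ⟨0, fun h1 h2 => absurd ⟨h1, h2⟩ hβ⟩
  choose c hc using hex
  refine ⟨(∏ β ∈ hfin.toFinset.filter (fun β => β ≠ α), (c β).natAbs).primeFactors, ?_⟩
  intro p hp hpS A hA τ hτ
  by_contra hne
  have hβroot : τ α ∈ (minpoly ℚ α).rootSet Qb := by
    rw [Polynomial.mem_rootSet]
    refine ⟨minpoly.ne_zero hα.tower_top, ?_⟩
    have h1 : Polynomial.aeval (τ α) (minpoly ℚ α)
        = τ (Polynomial.aeval α (minpoly ℚ α)) :=
      Polynomial.aeval_algHom_apply τ.toAlgHom α (minpoly ℚ α)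
    rw [h1, minpoly.aeval, map_zero]
  obtain ⟨hc0, hcA⟩ := hc (τ α) hβroot hne
  have hdvd : (p : ℤ) ∣ c (τ α) := int_dvd_of_mem_nonunits138 A hp hA (hcA A hτ)
  have hmem : τ α ∈ hfin.toFinset.filter (fun β => β ≠ α) := by
    rw [Finset.mem_filter, Set.Finite.mem_toFinset]
    exact ⟨hβroot, hne⟩
  have hprod0 : (∏ β ∈ hfin.toFinset.filter (fun β => β ≠ α), (c β).natAbs) ≠ 0 := by
    rw [Finset.prod_ne_zero_iff]
    intro β hβ
    rw [Finset.mem_filter, Set.Finite.mem_toFinset] at hβ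
    exact Int.natAbs_ne_zero.mpr (hc β hβ.1 hβ.2).1
  apply hpS
  rw [Nat.mem_primeFactors]
  refine ⟨hp, ?_, hprod0⟩
  have h1 : p ∣ (c (τ α)).natAbs := Int.natCast_dvd.mp hdvd
  exact h1.trans (Finset.dvd_prod_of_mem _ hmem)

end Fermat.Agent.LT.A2.H138

end
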