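import Mathlib
import Fermat.Agent.LT.A2.H38.ArtinSeedSpec
import Fermat.Agent.LT.A2.H138.FrobLAbs

/-!
# Row LT, tower A2, leaf `FrobLC` (registry 817) -- CLOSED, unconditional (helper138, OFF-MAIN)

`frobLC138 : Fermat.Agent.LT.A2.H38.FrobLC` (Prop of `LT/A2/H38/ArtinSeedSpec.lean`,
origin/helper38@fd6f38a61, byte-identical copy).

Route (no decomposition-group theory of `M / L`, no discriminant): let `a ∈ 𝓞 L` be an integral
primitive element of `L / ℚ` and `S₁` the finite set of primes dividing one of the nonzero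
integers `c_β` attached to the conjugates `β ≠ a` (`β - a ∣ c_β`).  For `p ∉ S₁`, `A | p`, an
element `τ ∈ D_A` acting trivially on the residue field of `w = A ∩ L` satisfies
`τ a ≡ a mod 𝔪_A`, hence `τ a = a`, hence `τ ∈ G_L = ρ⁻¹(C4)` (closed subgroup, Krull).
With `Nat.card (𝓞 L ⧸ w) = p ^ n` and `σ` a Frobenius at `A`:
* `σ ^ n` acts trivially on `𝓞 L ⧸ w`, so `ρ(σ) ^ n ∈ C4` and `f ≤ n`;
* `ρ(σ) ^ f ∈ C4`, so `σ ^ f` fixes `L`, so `y ^ (p ^ f) = y` on `𝓞 L ⧸ w`, so `p ^ n ≤ p ^ f`.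
`S₂` = primes dividing the norm of a place of `T`.
-/

set_option autoImplicit false

open IsDedekindDomain NumberField

noncomputable section

namespace Fermat.Agent.LT.A2.H138

open Fermat.Agent.LT.A2.H38

local notation "Qb" => AlgebraicClosure ℚ
local notation "Γℚ" => (AlgebraicClosure ℚ ≃ₐ[ℚ] AlgebraicClosure ℚ)

/-! ## The subgroup `ρ⁻¹(C4)` is closed -/

theorem subC4_isClosed138 (ρ : Γℚ →* GL (Fin 2) (ZMod 3)) (hρ : Continuous ρ) :
    IsClosed (subC4 ρ : Set Γℚ) := by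
  have h : (subC4 ρ : Set Γℚ) = ρ ⁻¹' (C4 : Set (GL (Fin 2) (ZMod 3))) := rfl
  rw [h]
  exact (isClosed_discrete _).preimage hρ

/-- An element of `G_ℚ` fixing `L` pointwise lies in `ρ⁻¹(C4)`. -/
theorem mem_C4_of_fixes138 (ρ : Γℚ →* GL (Fin 2) (ZMod 3)) (hρ : Continuous ρ) {τ : Γℚ}
    (h : ∀ x ∈ fieldL ρ, τ x = x) : ρ τ ∈ C4 := by
  have := isGalois_Qb138
  have h1 := InfiniteGalois.fixingSubgroup_fixedField (k := ℚ) (K := Qb)
    ⟨subC4 ρ, subC4_isClosed138 ρ hρ⟩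
  have h2 : τ ∈ (fieldL ρ).fixingSubgroup :=
    (IntermediateField.mem_fixingSubgroup_iff _ _).mpr h
  have h3 : (fieldL ρ).fixingSubgroup = subC4 ρ := h1
  rw [h3] at h2
  exact Subgroup.mem_comap.mp h2

/-- Elements of `ρ⁻¹(C4)` fix `L` pointwise. -/
theorem fixes_of_mem_C4_138 (ρ : Γℚ →* GL (Fin 2) (ZMod 3)) {τ : Γℚ} (h : ρ τ ∈ C4)
    {x : Qb} (hx : x ∈ fieldL ρ) : τ x = x :=
  (IntermediateField.mem_fixedField_iff _ _).mp hx τ (Subgroup.mem_comap.mpr h)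

/-! ## An integral primitive element -/

theorem isIntegral_coe138 (L : IntermediateField ℚ Qb) (x : 𝓞 L) :
    IsIntegral ℤ (((x : L)) : Qb) := by
  have h := RingOfIntegers.isIntegral_coe x
  exact h.map (IsScalarTower.toAlgHom ℤ L Qb)

/-- There is `a ∈ 𝓞 L` such that every `τ ∈ G_ℚ` fixing `a` fixes `L` pointwise. -/
theorem exists_int_gen138 (L : IntermediateField ℚ Qb) [NumberField L] :
    ∃ a : 𝓞 L, ∀ τ : Γℚ, τ (((a : L)) : Qb) = (((a : L)) : Qb) → ∀ x ∈ L, τ x = x := by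
  obtain ⟨α0, hα0⟩ := Field.exists_primitive_element ℚ L
  have halg : IsAlgebraic ℚ α0 := Algebra.IsAlgebraic.isAlgebraic α0
  have hint0 : IsIntegral ℚ α0 := halg.isIntegral
  obtain ⟨m, hm⟩ := IsIntegral.exists_multiple_integral_of_isLocalization
    (nonZeroDivisors ℤ) (Rₘ := ℚ) α0 hint0
  have hm0 : (m : ℤ) ≠ 0 := nonZeroDivisors.coe_ne_zero m
  refine ⟨IsIntegralClosure.mk' (𝓞 L) (m • α0) hm, ?_⟩
  intro τ hτ x hx
  have hcoe : algebraMap (𝓞 L) L (IsIntegralClosure.mk' (𝓞 L) (m • α0) hm) = m • α0 :=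
    IsIntegralClosure.algebraMap_mk' (𝓞 L) (m • α0) hm
  have hval : (((IsIntegralClosure.mk' (𝓞 L) (m • α0) hm : 𝓞 L) : L) : Qb)
      = ((m : ℤ) : Qb) * (α0 : Qb) := by
    have h1 : ((IsIntegralClosure.mk' (𝓞 L) (m • α0) hm : 𝓞 L) : L) = m • α0 := hcoe
    rw [h1]
    have h2 : (m • α0 : L) = ((m : ℤ) : L) * α0 := by
      rw [Submonoid.smul_def, zsmul_eq_mul]
    rw [h2]
    push_cast
    rfl
  rw [hval, map_mul, map_intCast] at hτ
  have hτ0 : τ (α0 : Qb) = (α0 : Qb) := by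
    have hmQ : ((m : ℤ) : Qb) ≠ 0 := by exact_mod_cast hm0
    exact mul_left_cancel₀ hmQ hτ
  have hadj : Algebra.adjoin ℚ {α0} = ⊤ := by
    have h1 := IntermediateField.adjoin_simple_toSubalgebra_of_isAlgebraic halg
    rw [hα0] at h1
    rw [← h1]
    rfl
  have hext : (τ.toAlgHom.comp L.val : L →ₐ[ℚ] Qb) = L.val := by
    apply AlgHom.ext_of_adjoin_eq_top hadj
    intro y hy
    rw [Set.mem_singleton_iff] at hy
    subst hy
    exact hτ0
  have := congrArg (fun φ : L →ₐ[ℚ] Qb => φ ⟨x, hx⟩) hext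
  exact this

/-! ## The reduction map `𝓞 L → k_A` -/

/-- The reduction map `𝓞 L → A / 𝔪_A`. -/
def redMap138 (L : IntermediateField ℚ Qb) (A : ValuationSubring Qb) :
    𝓞 L →+* IsLocalRing.ResidueField A :=
  (IsLocalRing.residue A).comp
    (((algebraMap L Qb).comp (algebraMap (𝓞 L) L)).codRestrict A
      (fun x => mem_of_isIntegral138 A (isIntegral_coe138 L x)))

theorem redMap138_apply (L : IntermediateField ℚ Qb) (A : ValuationSubring Qb) (x : 𝓞 L) :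
    redMap138 L A x = IsLocalRing.residue A
      ⟨(((x : L)) : Qb), mem_of_isIntegral138 A (isIntegral_coe138 L x)⟩ := rfl

theorem redMap138_eq_zero_iff (L : IntermediateField ℚ Qb) (A : ValuationSubring Qb) (x : 𝓞 L) :
    redMap138 L A x = 0 ↔ (((x : L)) : Qb) ∈ A.nonunits := by
  rw [redMap138_apply, IsLocalRing.residue_eq_zero_iff,
    ValuationSubring.mem_nonunits_iff_exists_mem_maximalIdeal]
  constructor
  · intro h
    exact ⟨_, h⟩
  · rintro ⟨_, h⟩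
    exact h

/-- The action of the decomposition group on the image of `𝓞 L`. -/
theorem smul_redMap138 (L : IntermediateField ℚ Qb) (A : ValuationSubring Qb) {τ : Γℚ}
    (hτ : τ ∈ A.decompositionSubgroup ℚ) (x : 𝓞 L) :
    (⟨τ, hτ⟩ : A.decompositionSubgroup ℚ) • redMap138 L A x
      = IsLocalRing.residue A ⟨τ (((x : L)) : Qb),
          apply_mem_of_mem_decomp138 A hτ (mem_of_isIntegral138 A (isIntegral_coe138 L x))⟩ := by
  rw [redMap138_apply, residue_smul138]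

/-- If `τ` fixes `x`, it fixes the class of `x`. -/
theorem smul_redMap138_of_fixed (L : IntermediateField ℚ Qb) (A : ValuationSubring Qb) {τ : Γℚ}
    (hτ : τ ∈ A.decompositionSubgroup ℚ) (x : 𝓞 L)
    (hx : τ (((x : L)) : Qb) = (((x : L)) : Qb)) :
    (⟨τ, hτ⟩ : A.decompositionSubgroup ℚ) • redMap138 L A x = redMap138 L A x := by
  rw [smul_redMap138, redMap138_apply]
  congr 1
  exact Subtype.ext hx

/-! ## The places of `T` -/

/-- The residue characteristic of a place under `A | p` is `p`. -/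
theorem natCast_mem_of_placeUnder138 (L : IntermediateField ℚ Qb) [NumberField L]
    {A : ValuationSubring Qb} {p : ℕ} (hA : A.LiesOverPrime p)
    {w : HeightOneSpectrum (𝓞 L)} (hw : PlaceUnder L A w) : ((p : ℕ) : 𝓞 L) ∈ w.asIdeal := by
  rw [hw]
  have h : ((((p : ℕ) : 𝓞 L) : L) : Qb) = (p : Qb) := by
    push_cast
    rfl
  rw [h]
  exact hA

theorem dvd_absNorm_of_placeUnder138 (L : IntermediateField ℚ Qb) [NumberField L]
    {A : ValuationSubring Qb} {p : ℕ} (hp : p.Prime) (hA : A.LiesOverPrime p)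
    {w : HeightOneSpectrum (𝓞 L)} (hw : PlaceUnder L A w) :
    p ∣ Ideal.absNorm w.asIdeal := by
  have h1 : ((Ideal.absNorm w.asIdeal : ℕ) : 𝓞 L) ∈ w.asIdeal := by
    have := Ideal.absNorm_mem w.asIdeal
    exact_mod_cast this
  rw [hw] at h1
  have h2 : ((((Ideal.absNorm w.asIdeal : ℕ) : 𝓞 L) : L) : Qb)
      = ((Ideal.absNorm w.asIdeal : ℕ) : Qb) := by
    push_cast
    rfl
  rw [h2] at h1
  exact nat_dvd_of_mem_nonunits138 A hp hA h1

/-! ## The residue degree -/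

/-- **The cardinality of the residue field of `w = A ∩ L`** in terms of a Frobenius element. -/
theorem card_quot_eq138 (ρ : Γℚ →* GL (Fin 2) (ZMod 3)) (hρ : Continuous ρ)
    [NumberField (fieldL ρ)] (a : 𝓞 (fieldL ρ))
    (ha : ∀ τ : Γℚ, τ (((a : fieldL ρ)) : Qb) = (((a : fieldL ρ)) : Qb) →
      ∀ x ∈ fieldL ρ, τ x = x)
    {p : ℕ} (hp : p.Prime) (A : ValuationSubring Qb) (hA : A.LiesOverPrime p)
    (hsep : ∀ τ : Γℚ, τ (((a : fieldL ρ)) : Qb) - (((a : fieldL ρ)) : Qb) ∈ A.nonunits →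
      τ (((a : fieldL ρ)) : Qb) = (((a : fieldL ρ)) : Qb))
    {σ : Γℚ} (hσ : A.IsFrobeniusAt σ p)
    {w : HeightOneSpectrum (𝓞 (fieldL ρ))} (hw : PlaceUnder (fieldL ρ) A w)
    {f : ℕ} (hf : IsLeastPowC4 (ρ σ) f) :
    Nat.card (𝓞 (fieldL ρ) ⧸ w.asIdeal) = p ^ f := by
  classical
  have : w.asIdeal.IsMaximal := w.isMaximal
  let _ : Field (𝓞 (fieldL ρ) ⧸ w.asIdeal) := Ideal.Quotient.field w.asIdeal
  have : Finite (𝓞 (fieldL ρ) ⧸ w.asIdeal) :=
    Ideal.finiteQuotientOfFreeOfNeBot w.asIdeal w.ne_bot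
  let _ : Fintype (𝓞 (fieldL ρ) ⧸ w.asIdeal) := Fintype.ofFinite _
  have hpw := natCast_mem_of_placeUnder138 (fieldL ρ) hA hw
  have : CharP (𝓞 (fieldL ρ) ⧸ w.asIdeal) p := by
    rw [CharP.charP_iff_prime_eq_zero hp]
    have : ((p : ℕ) : 𝓞 (fieldL ρ) ⧸ w.asIdeal)
        = Ideal.Quotient.mk w.asIdeal ((p : ℕ) : 𝓞 (fieldL ρ)) := by
      rw [map_natCast]
    rw [this]
    exact Ideal.Quotient.eq_zero_iff_mem.mpr hpw
  obtain ⟨n, -, hcard⟩ := FiniteField.card (𝓞 (fieldL ρ) ⧸ w.asIdeal) p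
  -- the embedding of the residue field of `w` in the residue field of `A`
  let ι : (𝓞 (fieldL ρ) ⧸ w.asIdeal) →+* IsLocalRing.ResidueField A :=
    Ideal.Quotient.lift w.asIdeal (redMap138 (fieldL ρ) A)
      (fun x hx => (redMap138_eq_zero_iff (fieldL ρ) A x).mpr ((hw x).mp hx))
  have hι : ∀ x : 𝓞 (fieldL ρ), ι (Ideal.Quotient.mk w.asIdeal x) = redMap138 (fieldL ρ) A x :=
    fun x => Ideal.Quotient.lift_mk _ _ _
  have hιinj : Function.Injective ι := RingHom.injective ι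
  have hσD : σ ∈ A.decompositionSubgroup ℚ := hσ.mem_decompositionSubgroup
  -- `f ≤ n`
  have hfn : f ≤ n := by
    have hFn := isFrobeniusAt_pow138 A hσ n
    obtain ⟨hσn, hxn⟩ := hFn
    have h1 : (⟨σ ^ (n : ℕ), hσn⟩ : A.decompositionSubgroup ℚ) • redMap138 (fieldL ρ) A a
        = redMap138 (fieldL ρ) A a := by
      rw [hxn, ← hι, ← map_pow, ← hcard, FiniteField.pow_card]
    rw [redMap138_apply] at h1
    have h2 := sub_mem_nonunits_of_smul_residue138 A hσn _ h1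
    have h3 := hsep (σ ^ (n : ℕ)) h2
    have h4 : ρ (σ ^ (n : ℕ)) ∈ C4 := mem_C4_of_fixes138 ρ hρ (ha _ h3)
    rw [map_pow] at h4
    by_contra hlt
    push Not at hlt
    exact hf.2.2 n n.pos hlt h4
  -- `n ≤ f`
  have hnf : (n : ℕ) ≤ f := by
    have h4 : ρ (σ ^ f) ∈ C4 := by rw [map_pow]; exact hf.2.1
    have hFf := isFrobeniusAt_pow138 A hσ f
    obtain ⟨hσf, hxf⟩ := hFf
    have hall : ∀ y : 𝓞 (fieldL ρ) ⧸ w.asIdeal, y ^ (p ^ f) = y := by
      intro y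
      obtain ⟨x, rfl⟩ := Ideal.Quotient.mk_surjective y
      apply hιinj
      rw [map_pow, hι, ← hxf]
      exact smul_redMap138_of_fixed (fieldL ρ) A hσf x
        (fixes_of_mem_C4_138 ρ h4 (SetLike.coe_mem (x : fieldL ρ)))
    have hf0 : f ≠ 0 := hf.1.ne'
    have hne : (Polynomial.X ^ p ^ f - Polynomial.X :
        Polynomial (𝓞 (fieldL ρ) ⧸ w.asIdeal)) ≠ 0 :=
      FiniteField.X_pow_card_pow_sub_X_ne_zero _ hf0 hp.one_lt
    have hdeg : (Polynomial.X ^ p ^ f - Polynomial.X :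
        Polynomial (𝓞 (fieldL ρ) ⧸ w.asIdeal)).natDegree = p ^ f :=
      FiniteField.X_pow_card_pow_sub_X_natDegree_eq _ hf0 hp.one_lt
    have hsub : (Finset.univ : Finset (𝓞 (fieldL ρ) ⧸ w.asIdeal))
        ⊆ (Polynomial.X ^ p ^ f - Polynomial.X :
          Polynomial (𝓞 (fieldL ρ) ⧸ w.asIdeal)).roots.toFinset := by
      intro y _
      rw [Multiset.mem_toFinset, Polynomial.mem_roots hne, Polynomial.IsRoot.def]
      simp only [Polynomial.eval_sub, Polynomial.eval_pow, Polynomial.eval_X]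
      rw [hall y, sub_self]
    have hle : Fintype.card (𝓞 (fieldL ρ) ⧸ w.asIdeal) ≤ p ^ f := by
      calc Fintype.card (𝓞 (fieldL ρ) ⧸ w.asIdeal)
          = (Finset.univ : Finset (𝓞 (fieldL ρ) ⧸ w.asIdeal)).card := rfl
        _ ≤ _ := Finset.card_le_card hsub
        _ ≤ _ := Multiset.toFinset_card_le _
        _ ≤ _ := Polynomial.card_roots' _
        _ = p ^ f := hdeg
    rw [hcard] at hle
    exact (Nat.pow_le_pow_iff_right hp.one_lt).mp hle
  rw [Nat.card_eq_fintype_card, hcard, le_antisymm hnf hfn]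

/-! ## The leaf -/

/-- **Leaf FROB-L (registry 817), unconditional.** -/
theorem frobLC138 : FrobLC := by
  intro ρ Ψ hyp _ T
  classical
  obtain ⟨a, ha⟩ := exists_int_gen138 (fieldL ρ)
  obtain ⟨S1, hS1⟩ := exists_sep_primes138 (isIntegral_coe138 (fieldL ρ) a)
  refine ⟨S1 ∪ T.biUnion (fun w => (Ideal.absNorm w.asIdeal).primeFactors), ?_⟩
  intro p hp hpS A hA σ hσ w hw
  rw [Finset.mem_union, not_or] at hpS
  obtain ⟨hpS1, hpS2⟩ := hpS
  refine ⟨fun hwT => hpS2 ?_, fun f hf => ?_⟩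
  · rw [Finset.mem_biUnion]
    refine ⟨w, hwT, ?_⟩
    rw [Nat.mem_primeFactors]
    refine ⟨hp, dvd_absNorm_of_placeUnder138 (fieldL ρ) hp hA hw, ?_⟩
    rw [Ne, Ideal.absNorm_eq_zero_iff]
    exact w.ne_bot
  · rw [card_quot_eq138 ρ hyp.cont a ha hp A hA (hS1 p hp hpS1 A hA) hσ hw hf]
    exact isFrobeniusAt_pow138 A hσ f

end Fermat.Agent.LT.A2.H138

end
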