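import Mathlib

/-!
# Row LT, tower A2, leaf A2.03.1.1.02 `ProdIntC` (spare, helper138) -- abstract part

OFF-MAIN.  Mathlib only.

`G`, `H` additive topological groups with Borel σ-algebras, `μ` a left invariant measure on `G`
which is finite on compact sets, `W` an open subgroup of `G`, `P : G →+ H` continuous with a
continuous section `s : H →+ G` with values in `W`, and `W ∩ ker P` contained in a compact set.
Then the image under `P` of the restriction of `μ` to `W` is left invariant and finite on compact
sets, hence a multiple `κ • π` of any Haar measure `π` of `H` (`H` locally compact and second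
countable); `κ` is computed on any set of finite positive measure.
-/

set_option autoImplicit false

open MeasureTheory Set
open scoped ENNReal NNReal Pointwise

noncomputable section

namespace Fermat.Agent.LT.A2.H138

section Push

variable {G H : Type*} [AddCommGroup G] [TopologicalSpace G] [IsTopologicalAddGroup G]
  [MeasurableSpace G] [BorelSpace G]
  [AddCommGroup H] [TopologicalSpace H] [IsTopologicalAddGroup H]
  [MeasurableSpace H] [BorelSpace H]

/-- The image under `P` of the restriction of `μ` to `W`. -/
def pushMeas138 (μ : Measure G) (W : Set G) (P : G → H) : Measure H :=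
  (μ.restrict W).map P

theorem pushMeas_apply138 (μ : Measure G) {W : Set G} {P : G → H}
    (hP : Measurable P) {E : Set H} (hE : MeasurableSet E) :
    pushMeas138 μ W P E = μ (P ⁻¹' E ∩ W) := by
  rw [pushMeas138, Measure.map_apply hP hE, Measure.restrict_apply (hP hE)]

theorem pushMeas_isAddLeftInvariant138 (μ : Measure G) [μ.IsAddLeftInvariant]
    (W : AddSubgroup G) (P : G →+ H) (hP : Continuous P) (s : H → G)
    (hPs : ∀ h, P (s h) = h) (hsW : ∀ h, s h ∈ W) :
    (pushMeas138 μ (W : Set G) P).IsAddLeftInvariant := by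
  refine ⟨fun h₀ => ?_⟩
  ext E hE
  have hm : Measurable (fun x : H => h₀ + x) := (continuous_const.add continuous_id).measurable
  rw [Measure.map_apply hm hE, pushMeas_apply138 μ hP.measurable (hm hE),
    pushMeas_apply138 μ hP.measurable hE]
  have hset : (P ⁻¹' ((fun x : H => h₀ + x) ⁻¹' E) ∩ (W : Set G))
      = (fun x : G => s h₀ + x) ⁻¹' (P ⁻¹' E ∩ (W : Set G)) := by
    ext x
    simp only [mem_inter_iff, mem_preimage, SetLike.mem_coe, map_add, hPs]
    constructor
    · rintro ⟨h1, h2⟩
      exact ⟨h1, W.add_mem (hsW h₀) h2⟩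
    · rintro ⟨h1, h2⟩
      refine ⟨h1, ?_⟩
      have := W.sub_mem h2 (hsW h₀)
      simpa using this
  rw [hset, measure_preimage_add]

theorem pushMeas_isFiniteMeasureOnCompacts138 (μ : Measure G) [IsFiniteMeasureOnCompacts μ]
    (W : AddSubgroup G) (P : G →+ H) (hP : Continuous P) (s : H → G) (hs : Continuous s)
    (hPs : ∀ h, P (s h) = h) (hsW : ∀ h, s h ∈ W)
    (C : Set G) (hC : IsCompact C) (hker : ∀ x ∈ W, P x = 0 → x ∈ C) [T2Space H] :
    IsFiniteMeasureOnCompacts (pushMeas138 μ (W : Set G) P) := by
  refine ⟨fun E hE => ?_⟩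
  rw [pushMeas_apply138 μ hP.measurable hE.isClosed.measurableSet]
  have hsub : P ⁻¹' E ∩ (W : Set G) ⊆ s '' E + C := by
    rintro x ⟨hx1, hx2⟩
    refine ⟨s (P x), ⟨P x, hx1, rfl⟩, x - s (P x), ?_, by abel⟩
    refine hker _ (W.sub_mem hx2 (hsW _)) ?_
    rw [map_sub, hPs, sub_self]
  exact lt_of_le_of_lt (measure_mono hsub) ((hE.image hs).add hC).measure_lt_top

/-- **The image of the restricted measure is a multiple of the Haar measure.** -/
theorem pushMeas_eq_smul138 [LocallyCompactSpace H] [SecondCountableTopology H] [T2Space H]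
    (μ : Measure G) [μ.IsAddLeftInvariant] [IsFiniteMeasureOnCompacts μ]
    (π : Measure H) [π.IsAddHaarMeasure]
    (W : AddSubgroup G) (P : G →+ H) (hP : Continuous P) (s : H → G) (hs : Continuous s)
    (hPs : ∀ h, P (s h) = h) (hsW : ∀ h, s h ∈ W)
    (C : Set G) (hC : IsCompact C) (hker : ∀ x ∈ W, P x = 0 → x ∈ C) :
    ∃ κ : ℝ≥0, pushMeas138 μ (W : Set G) P = κ • π := by
  have := pushMeas_isAddLeftInvariant138 μ W P hP s hPs hsW
  have := pushMeas_isFiniteMeasureOnCompacts138 μ W P hP s hs hPs hsW C hC hker
  exact ⟨_, Measure.isAddLeftInvariant_eq_smul (pushMeas138 μ (W : Set G) P) π⟩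

/-- The constant is computed on any measurable set of finite positive measure. -/
theorem kappa_eq138 (μ : Measure G) (π : Measure H) {W : Set G} {P : G → H}
    (hP : Measurable P) {κ : ℝ≥0} (hκ : pushMeas138 μ W P = κ • π)
    {B : Set H} (hB : MeasurableSet B) (h0 : π B ≠ 0) (htop : π B ≠ ⊤) :
    (κ : ℝ≥0∞) = μ (P ⁻¹' B ∩ W) / π B := by
  have h := congrArg (fun m : Measure H => m B) hκ
  simp only [pushMeas_apply138 μ hP hB, Measure.smul_apply, ENNReal.smul_def, smul_eq_mul] at h
  rw [ENNReal.eq_div_iff h0 htop, h, mul_comm]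

/-- Integrals against the image measure. -/
theorem integral_indicator_comp138 (μ : Measure G) (π : Measure H) {W : Set G}
    (hW : MeasurableSet W) {P : G → H} (hP : Measurable P) {κ : ℝ≥0}
    (hκ : pushMeas138 μ W P = κ • π) (f : H → ℂ) (hf : AEStronglyMeasurable f π) :
    ∫ x, W.indicator (fun x => f (P x)) x ∂μ = (κ : ℂ) * ∫ y, f y ∂π := by
  rw [integral_indicator hW]
  have hf' : AEStronglyMeasurable f ((μ.restrict W).map P) := by
    change AEStronglyMeasurable f (pushMeas138 μ W P)
    rw [hκ]
    exact hf.smul_measure _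
  rw [← integral_map hP.aemeasurable hf']
  change ∫ y, f y ∂(pushMeas138 μ W P) = _
  rw [hκ, integral_smul_nnreal_measure]
  rw [NNReal.smul_def, Complex.real_smul]

theorem integrable_indicator_comp138 (μ : Measure G) (π : Measure H) {W : Set G}
    (hW : MeasurableSet W) {P : G → H} (hP : Measurable P) {κ : ℝ≥0}
    (hκ : pushMeas138 μ W P = κ • π) (f : H → ℂ) (hf : Integrable f π) :
    Integrable (W.indicator (fun x => f (P x))) μ := by
  rw [integrable_indicator_iff hW]
  have h1 : Integrable f (pushMeas138 μ W P) := by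
    rw [hκ]
    exact hf.smul_measure_nnreal
  have h2 : Integrable f ((μ.restrict W).map P) := h1
  exact (integrable_map_measure h2.aestronglyMeasurable hP.aemeasurable).1 h2

end Push

end Fermat.Agent.LT.A2.H138

end
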